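/-
GATE-P (S56 long shot) / [P-FLAT] TAME WEIGHT, part 1 (helper90): the LEADING TERM of a point of a
finite flat group scheme, in the convolution ring (function model of helper15's `LemmaF`).

For linear functionals `f g : H → K` on a coalgebra `H` write `f = 1 + a`, `g = 1 + b` in the
convolution ring (`1 = ` counit).  Then `f * g - 1 = a + b + a * b` and `|a * b| ≤ |a| |b|` for the
sup-valuation: on the points `≡ 1` modulo `c` (`|c| < 1`) the map `f ↦ (f - 1)/c mod 𝔪` is additive.
Likewise `(1 + z) ^ n - 1 - n • z` is `O(|z|²)`.  Finally the contrapositive of Lemma F: a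
non-trivial `p`-torsion point has `|p| ≤ |z| ^ (p - 1)`.  Mathlib + `GP/Flat/LemmaF` only.
-/
import Fermat.Agent.GP.Flat.LemmaF

set_option autoImplicit false

namespace Fermat.Agent.GP.Flat.TameWeight

open Coalgebra TensorProduct WithConv Fermat.Agent.GP.Flat.LemmaF

section Linear

variable {R₀ : Type*} [CommRing R₀] {H : Type*} [AddCommGroup H] [Module R₀ H] [Coalgebra R₀ H]
variable {K : Type*} [Field K] [Algebra R₀ K]
variable {Γ₀ : Type*} [LinearOrderedCommGroupWithZero Γ₀] (v : Valuation K Γ₀)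

/-- `(1 + a)(1 + b) - 1 = a + b + a b` in the convolution ring, with the product term bounded by
the product of the sup-valuations: the leading term is additive. -/
theorem leading_mul {a b : WithConv (H →ₗ[R₀] K)} {γ δ : Γ₀}
    (ha : ∀ h, v (a h) ≤ γ) (hb : ∀ h, v (b h) ≤ δ) (h : H) :
    v (((1 + a) * (1 + b) - 1) h - (a h + b h)) ≤ γ * δ := by
  have h1 : (1 + a) * (1 + b) - 1 = a + b + a * b := by noncomm_ring
  have h2 : ((1 + a) * (1 + b) - 1) h - (a h + b h) = (a * b) h := by
    rw [h1]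
    show (a h + b h + (a * b) h) - (a h + b h) = (a * b) h
    ring
  rw [h2]
  exact convMul_bdd v ha hb h

/-- the error term `(1 + z) ^ n - 1 - n • z`. -/
noncomputable def powErr (z : WithConv (H →ₗ[R₀] K)) (n : ℕ) : WithConv (H →ₗ[R₀] K) :=
  (1 + z) ^ n - 1 - n • z

theorem powErr_zero (z : WithConv (H →ₗ[R₀] K)) : powErr z 0 = 0 := by
  simp [powErr]

theorem powErr_succ (z : WithConv (H →ₗ[R₀] K)) (n : ℕ) :
    powErr z (n + 1) = powErr z n + powErr z n * z + n • (z * z) := by
  simp only [powErr, pow_succ, succ_nsmul, mul_add, mul_one, sub_mul, one_mul, smul_mul_assoc]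
  abel

theorem add_pow_eq (z : WithConv (H →ₗ[R₀] K)) (n : ℕ) :
    (1 + z) ^ n = 1 + n • z + powErr z n := by
  simp only [powErr]
  noncomm_ring

end Linear

section Bounds

variable {R₀ : Type*} [CommRing R₀] {H : Type*} [AddCommGroup H] [Module R₀ H] [Coalgebra R₀ H]
variable {K : Type*} [Field K] [Algebra R₀ K]
variable {Γ₀ : Type*} [LinearOrderedCommGroupWithZero Γ₀] (v : Valuation K Γ₀)

omit [Coalgebra R₀ H] in
theorem natCast_smul_apply (n : ℕ) (w : WithConv (H →ₗ[R₀] K)) (h : H) :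
    (n • w) h = (n : K) * w h := by
  show (n • w).ofConv h = _
  rw [WithConv.ofConv_smul, LinearMap.smul_apply, nsmul_eq_mul]

/-- `(1 + z) ^ n - 1 - n z = O(|z|²)` for the sup-valuation, when `|z| ≤ γ ≤ 1`. -/
theorem powErr_bdd (hint : ∀ r : R₀, v (algebraMap R₀ K r) ≤ 1)
    {z : WithConv (H →ₗ[R₀] K)} {γ : Γ₀} (hγ : γ ≤ 1) (hz : ∀ h, v (z h) ≤ γ) (n : ℕ) (h : H) :
    v ((powErr z n) h) ≤ γ * γ := by
  induction n generalizing h with
  | zero =>
    rw [powErr_zero]
    show v 0 ≤ _
    rw [map_zero]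
    exact zero_le
  | succ n ih =>
    rw [powErr_succ]
    show v ((powErr z n) h + (powErr z n * z) h + (n • (z * z)) h) ≤ γ * γ
    have h1 : v ((powErr z n * z) h) ≤ γ * γ := by
      have := convMul_bdd v ih hz h
      calc v ((powErr z n * z) h) ≤ γ * γ * γ := this
        _ ≤ γ * γ * 1 := mul_le_mul_right hγ _
        _ = γ * γ := mul_one _
    have h2 : v ((n • (z * z)) h) ≤ γ * γ := by
      rw [natCast_smul_apply, map_mul]
      have hn : v ((n : ℕ) : K) ≤ 1 := by
        have := hint (n : R₀); rwa [map_natCast] at this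
      calc v (n : K) * v ((z * z) h) ≤ 1 * (γ * γ) := mul_le_mul' hn (convMul_bdd v hz hz h)
        _ = γ * γ := one_mul _
    exact (v.map_add _ _).trans (max_le ((v.map_add _ _).trans (max_le (ih h) h1)) h2)

end Bounds

section Points

variable {R₀ : Type*} [CommRing R₀] {H : Type*} [CommRing H] [Bialgebra R₀ H]
  [Module.Finite R₀ H]
variable {K : Type*} [Field K] [Algebra R₀ K]
variable {Γ₀ : Type*} [LinearOrderedCommGroupWithZero Γ₀] (v : Valuation K Γ₀)

/-- Contrapositive of Lemma F: a non-trivial `p`-torsion point `x` has some coordinate with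
`|p| ≤ |x h - ε h| ^ (p - 1)`. -/
theorem exists_le_pow_of_ne_one {p : ℕ} (hp : p.Prime) (hp0 : (p : K) ≠ 0)
    (hint : ∀ r : R₀, v (algebraMap R₀ K r) ≤ 1)
    (x : WithConv (H →ₐ[R₀] K)) (hpow : x ^ p = 1) (hx : x ≠ 1) :
    ∃ h, v (p : K) ≤ v (x h - algebraMap R₀ K (Coalgebra.counit h)) ^ (p - 1) := by
  by_contra hcon
  push Not at hcon
  exact hx (eq_one_of_pow_eq_one v hp hp0 hint x hpow hcon)

omit [Module.Finite R₀ H] in
/-- the coordinates of `x ^ n`, expanded to first order around the counit. -/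
theorem pow_apply_eq (x : WithConv (H →ₐ[R₀] K)) (n : ℕ) (h : H) :
    (x ^ n) h - algebraMap R₀ K (Coalgebra.counit h) =
      (n : K) * (x h - algebraMap R₀ K (Coalgebra.counit h)) + (powErr (lin x - 1) n) h := by
  have h1 : (x ^ n) h = (lin x ^ n) h := by rw [← lin_pow]; rfl
  have h2 : lin x ^ n = 1 + n • (lin x - 1) + powErr (lin x - 1) n := by
    have := add_pow_eq (lin x - 1) n
    rwa [add_sub_cancel] at this
  rw [h1, h2]
  show ((1 : WithConv (H →ₗ[R₀] K)) h + (n • (lin x - 1)) h + (powErr (lin x - 1) n) h) - _ = _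
  rw [natCast_smul_apply]
  have h3 : (1 : WithConv (H →ₗ[R₀] K)) h = algebraMap R₀ K (Coalgebra.counit h) := rfl
  have h4 : (lin x - 1 : WithConv (H →ₗ[R₀] K)) h =
      x h - algebraMap R₀ K (Coalgebra.counit h) := rfl
  rw [h3, h4]
  ring

end Points

end Fermat.Agent.GP.Flat.TameWeight
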