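/-
GATE-P (S56 long shot) / [P-FLAT] TAME WEIGHT, part 2 (helper90): **level 1**.

`A | p` a valuation subring of `ℚ̄`, `I_A` its inertia group, `H` a finite bialgebra over a base
`R₀ ⊆ A` fixed by `G_ℚ` (frozen shape: `R₀ = ℤ_(p)`), `x : H →ₐ ℚ̄` a point with `x ^ p = 1`, `x ≠ 1`,
CONNECTED (`x h ≡ ε h` modulo `𝔪_A`), whose line `⟨x⟩` is `I_A`-stable.  Then `I_A` acts on `⟨x⟩`
through the mod-`p` cyclotomic character (`inertia_char_eq_cyclotomic`).  This is the part of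
Raynaud's theorem on tame characters that the flat deformation problem needs: a flat `ρ̄` which is
reducible at `p` with a connected stable line has that line of type `ω·(unramified)`, hence the
quotient character is unramified; "reducible with both characters ramified" does not occur.

Proof: `c₀ = x b₀ - ε b₀` a coordinate of maximal valuation `γ < 1`.  The inertia orbit of `c₀` has
length `d ≤ p - 1`, its product is inertia-fixed, so `γ ^ d = v(p) ^ m` (helper26's (U1)); Lemma F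
gives `v(p) ≤ γ ^ (p-1)`; hence `m = 1`, `d = p - 1`, `γ = v(1 - ζ)`.  Then `σ c₀ / c₀` is computed
twice modulo `𝔪_A`: from the leading term of `x ^ n` it is `n`, from `c₀ = u (1 - ζ)` with `u` a
unit it is the cyclotomic exponent of `σ`.
-/
import Fermat.Agent.GP.Flat.TameWeight.Leading
import Fermat.Agent.GL.Local.TameZeta
import Fermat.Agent.S13.BranchInertia

set_option autoImplicit false

namespace Fermat.Agent.GP.Flat.TameWeight

open Fermat.Agent.Common_helper32 Fermat.Agent.GL.Local.InertiaField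
open Fermat.Agent.GP.Flat.LemmaF WithConv

section Arith

variable {Γ₀ : Type*} [LinearOrderedCommGroupWithZero Γ₀]

/-- value-group arithmetic behind the tame weight: `a ≤ γ^q`, `γ^d = a^m` with `1 ≤ d ≤ q`,
`a, γ < 1` force `γ^q = a`. -/
theorem pow_eq_of_norm {a γ : Γ₀} (ha0 : a ≠ 0) (ha1 : a < 1) (hγ1 : γ < 1) {q : ℕ}
    (hq : 1 ≤ q) (hF : a ≤ γ ^ q) {d : ℕ} {m : ℤ} (hd1 : 1 ≤ d) (hdq : d ≤ q)
    (h : γ ^ d = a ^ m) : γ ^ q = a := by
  have hapos : 0 < a := zero_lt_iff.mpr ha0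
  have hγd : γ ^ d < 1 := pow_lt_one' hγ1 (by omega)
  have hm : 1 ≤ m := by
    by_contra hcon
    have hm0 : m ≤ 0 := by omega
    have : 1 ≤ a ^ m := one_le_zpow_of_nonpos₀ hapos ha1.le hm0
    rw [← h] at this
    exact absurd hγd (not_lt.mpr this)
  obtain ⟨k, rfl⟩ := Int.eq_ofNat_of_zero_le (by omega : 0 ≤ m)
  rw [zpow_natCast] at h
  have hk : 1 ≤ k := by exact_mod_cast hm
  have h1 : a ^ d ≤ a ^ (k * q) := by
    calc a ^ d ≤ (γ ^ q) ^ d := pow_le_pow_left' hF d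
      _ = (γ ^ d) ^ q := by rw [← pow_mul, ← pow_mul, mul_comm]
      _ = a ^ (k * q) := by rw [h, ← pow_mul]
  have h2 : k * q ≤ d := by
    by_contra hcon
    have hlt : d < k * q := by omega
    have := pow_lt_pow_right_of_lt_one₀ hapos ha1 hlt
    exact absurd h1 (not_le.mpr this)
  have hk1 : k = 1 := by
    by_contra hk2
    have : 2 ≤ k := by omega
    nlinarith
  subst hk1
  have hdq' : d = q := by omega
  rw [← hdq', h, pow_one]

end Arith

section Norm

variable (A : ValuationSubring Qb) {p : ℕ} (hp : p.Prime) (hA : (p : Qb) ∈ A.nonunits)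

include hp hA in
/-- **Norm over an inertia orbit.**  If the inertia orbit of `c₀ ≠ 0` lies in a finite set `S`, then
`v(c₀)^d = v(p)^m` for some `1 ≤ d ≤ #S` (the orbit length) and `m : ℤ`: the product over the orbit
is inertia-fixed, and the inertia field has value group `v(p)^ℤ` (helper26's (U1)). -/
theorem exists_pow_eq_zpow_of_orbit {c₀ : Qb} (hc0 : c₀ ≠ 0) (S : Finset Qb)
    (hS : ∀ σ ∈ A.inertiaSubgroupIn ℚ, σ c₀ ∈ S) :
    ∃ (d : ℕ) (m : ℤ), 1 ≤ d ∧ d ≤ S.card ∧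
      A.valuation c₀ ^ d = A.valuation (p : Qb) ^ m := by
  classical
  have hLO : A.LiesOverPrime p := hA
  set O : Finset Qb := S.filter (fun c => ∃ σ ∈ A.inertiaSubgroupIn ℚ, σ c₀ = c) with hO
  have hmemO : ∀ c, c ∈ O ↔ c ∈ S ∧ ∃ σ ∈ A.inertiaSubgroupIn ℚ, σ c₀ = c := by
    intro c; rw [hO, Finset.mem_filter]
  have hc0O : c₀ ∈ O := by
    rw [hmemO]
    have h1 := hS 1 (Subgroup.one_mem _)
    exact ⟨by simpa using h1, 1, Subgroup.one_mem _, by simp⟩
  have hval : ∀ c ∈ O, A.valuation c = A.valuation c₀ := by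
    intro c hc
    obtain ⟨-, σ, hσ, rfl⟩ := (hmemO c).mp hc
    exact Fermat.Agent.S13.Branch.valuation_apply_eq_of_mem_inertia A hp hLO hσ c₀
  have hne : ∀ c ∈ O, c ≠ 0 := by
    intro c hc
    obtain ⟨-, σ, hσ, rfl⟩ := (hmemO c).mp hc
    exact (map_ne_zero σ).mpr hc0
  have himg : ∀ τ ∈ A.inertiaSubgroupIn ℚ, O.image (fun c => τ c) = O := by
    intro τ hτ
    apply Finset.eq_of_subset_of_card_le
    · intro c hc
      obtain ⟨c', hc', rfl⟩ := Finset.mem_image.mp hc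
      obtain ⟨-, σ, hσ, rfl⟩ := (hmemO c').mp hc'
      rw [hmemO]
      have hτσ : τ * σ ∈ A.inertiaSubgroupIn ℚ := Subgroup.mul_mem _ hτ hσ
      exact ⟨by simpa using hS (τ * σ) hτσ, τ * σ, hτσ, rfl⟩
    · rw [Finset.card_image_of_injective _ τ.injective]
  set N : Qb := ∏ c ∈ O, c with hN
  have hN0 : N ≠ 0 := Finset.prod_ne_zero_iff.mpr hne
  have hNfix : ∀ τ ∈ A.inertiaSubgroupIn ℚ, τ N = N := by
    intro τ hτ
    rw [hN, map_prod]
    conv_rhs => rw [← himg τ hτ]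
    rw [Finset.prod_image (fun a _ b _ hab => τ.injective hab)]
  have hvN : A.valuation N = A.valuation c₀ ^ O.card := by
    rw [hN, map_prod, Finset.prod_congr rfl hval, Finset.prod_const]
  obtain ⟨m, hm1, hm2⟩ := exists_zpow_unit_of_fixed A hp hA N hN0 hNfix
  refine ⟨O.card, m, Finset.card_pos.mpr ⟨c₀, hc0O⟩, Finset.card_le_card (Finset.filter_subset _ _), ?_⟩
  rw [← hvN]
  have hp0 : (p : Qb) ≠ 0 := by exact_mod_cast hp.ne_zero
  have hpm : (p : Qb) ^ m ≠ 0 := zpow_ne_zero _ hp0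
  have h1 : A.valuation (N / (p : Qb) ^ m) = 1 := by
    apply le_antisymm ((A.valuation_le_one_iff _).mpr hm1)
    have h2 : A.valuation (N / (p : Qb) ^ m)⁻¹ ≤ 1 := (A.valuation_le_one_iff _).mpr hm2
    rw [map_inv₀] at h2
    by_contra hcon
    push Not at hcon
    have hpos : 0 < A.valuation (N / (p : Qb) ^ m) :=
      zero_lt_iff.mpr ((Valuation.ne_zero_iff _).mpr (div_ne_zero hN0 hpm))
    have : 1 < (A.valuation (N / (p : Qb) ^ m))⁻¹ := (one_lt_inv₀ hpos).mpr hcon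
    exact absurd h2 (not_le.mpr this)
  rw [map_div₀, map_zpow₀] at h1
  have hvpm : A.valuation (p : Qb) ^ m ≠ 0 :=
    zpow_ne_zero _ ((Valuation.ne_zero_iff _).mpr hp0)
  exact (div_eq_one_iff_eq hvpm).mp h1

end Norm

section Main

variable (A : ValuationSubring Qb) {p : ℕ} (hp : p.Prime) (hA : (p : Qb) ∈ A.nonunits)
variable {R₀ : Type*} [CommRing R₀] [Algebra R₀ Qb]
  (hint : ∀ r : R₀, algebraMap R₀ Qb r ∈ A)
  (hfix : ∀ (σ : GQ) (r : R₀), σ (algebraMap R₀ Qb r) = algebraMap R₀ Qb r)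
variable {H : Type*} [CommRing H] [Bialgebra R₀ H] [Module.Finite R₀ H]

include hp hA hint hfix in
/-- **Depth of a connected point with inertia-stable line.**  `x` a non-trivial `p`-torsion point,
`≡ 1` modulo `𝔪_A`, whose inertia conjugates are powers of `x`.  Then there is a coordinate `b₀`
with `c₀ = x b₀ - ε b₀` of maximal valuation, and `v(c₀)^(p-1) = v(p)`. -/
theorem exists_max_coord (x : WithConv (H →ₐ[R₀] Qb)) (hx1 : x ≠ 1) (hxp : x ^ p = 1)
    (hconn : ∀ h, x h - algebraMap R₀ Qb (Coalgebra.counit h) ∈ A.nonunits)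
    (hstab : ∀ σ ∈ A.inertiaSubgroupIn ℚ, ∃ n : ℕ, ∀ h, σ (x h) = (x ^ n) h) :
    ∃ b₀ : H, (∀ h, A.valuation (x h - algebraMap R₀ Qb (Coalgebra.counit h)) ≤
        A.valuation (x b₀ - algebraMap R₀ Qb (Coalgebra.counit b₀))) ∧
      x b₀ - algebraMap R₀ Qb (Coalgebra.counit b₀) ≠ 0 ∧
      A.valuation (x b₀ - algebraMap R₀ Qb (Coalgebra.counit b₀)) ^ (p - 1) =
        A.valuation (p : Qb) := by
  classical
  have hint' : ∀ r : R₀, A.valuation (algebraMap R₀ Qb r) ≤ 1 :=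
    fun r => (A.valuation_le_one_iff _).mpr (hint r)
  have hp0 : (p : Qb) ≠ 0 := by exact_mod_cast hp.ne_zero
  obtain ⟨b₀, hmax⟩ := exists_max A.valuation hint' (lin x - 1).ofConv
  have hmax' : ∀ h, A.valuation (x h - algebraMap R₀ Qb (Coalgebra.counit h)) ≤
      A.valuation (x b₀ - algebraMap R₀ Qb (Coalgebra.counit b₀)) := hmax
  set c₀ : Qb := x b₀ - algebraMap R₀ Qb (Coalgebra.counit b₀) with hc₀
  have hc0 : c₀ ≠ 0 := by
    intro h0
    apply hx1
    apply lin_injective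
    rw [lin_one]
    have hz : lin x - 1 = 0 := by
      ext h
      have h1 := hmax' h
      rw [h0, map_zero, le_zero_iff, map_eq_zero] at h1
      exact h1
    exact sub_eq_zero.mp hz
  refine ⟨b₀, hmax', hc0, ?_⟩
  have hγ1 : A.valuation c₀ < 1 := (A.mem_nonunits_iff).mp (hconn b₀)
  -- Lemma F
  obtain ⟨h₁, hh₁⟩ := exists_le_pow_of_ne_one A.valuation hp hp0 hint' x hxp hx1
  have hF : A.valuation (p : Qb) ≤ A.valuation c₀ ^ (p - 1) :=
    hh₁.trans (pow_le_pow_left' (hmax' h₁) _)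
  -- the orbit
  set S : Finset Qb := (Finset.Ico 1 p).image
    (fun n => (x ^ n) b₀ - algebraMap R₀ Qb (Coalgebra.counit b₀)) with hS
  have hSorb : ∀ σ ∈ A.inertiaSubgroupIn ℚ, σ c₀ ∈ S := by
    intro σ hσ
    obtain ⟨n, hn⟩ := hstab σ hσ
    have h1 : σ c₀ = (x ^ (n % p)) b₀ - algebraMap R₀ Qb (Coalgebra.counit b₀) := by
      rw [hc₀, map_sub, hfix, hn b₀, pow_eq_pow_mod n hxp]
    have hnp : n % p ≠ 0 := by
      intro h0
      have h2 : σ c₀ = 0 := by
        rw [h1, h0, pow_zero]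
        exact sub_self _
      exact hc0 ((map_eq_zero σ).mp h2)
    rw [hS, Finset.mem_image]
    exact ⟨n % p, Finset.mem_Ico.mpr ⟨Nat.one_le_iff_ne_zero.mpr hnp, Nat.mod_lt _ hp.pos⟩, h1.symm⟩
  obtain ⟨d, m, hd1, hdS, hdm⟩ := exists_pow_eq_zpow_of_orbit A hp hA hc0 S hSorb
  have hScard : S.card ≤ p - 1 := by
    calc S.card ≤ (Finset.Ico 1 p).card := Finset.card_image_le
      _ = p - 1 := Nat.card_Ico 1 p
  have hvp0 : A.valuation (p : Qb) ≠ 0 := (Valuation.ne_zero_iff _).mpr hp0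
  have hvp1 : A.valuation (p : Qb) < 1 := (A.mem_nonunits_iff).mp hA
  have hq : 1 ≤ p - 1 := by have := hp.two_le; omega
  exact pow_eq_of_norm hvp0 hvp1 hγ1 hq hF hd1 (hdS.trans hScard) hdm

include hp hA hint hfix in
/-- **TAME WEIGHT, level 1.**  `x` a non-trivial `p`-torsion point of a finite bialgebra over
`R₀ ⊆ A ∩ ℚ̄^{G_ℚ}`, reducing to the identity modulo `𝔪_A` (a *connected* point), such that the line
`⟨x⟩` is stable under the inertia group `I_A`.  Then `I_A` acts on `⟨x⟩` through the mod-`p`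
cyclotomic character: `σ x = x ^ n` implies `σ ζ = ζ ^ n` for every `p`-th root of unity `ζ`. -/
theorem inertia_char_eq_cyclotomic (x : WithConv (H →ₐ[R₀] Qb)) (hx1 : x ≠ 1) (hxp : x ^ p = 1)
    (hconn : ∀ h, x h - algebraMap R₀ Qb (Coalgebra.counit h) ∈ A.nonunits)
    (hstab : ∀ σ ∈ A.inertiaSubgroupIn ℚ, ∃ n : ℕ, ∀ h, σ (x h) = (x ^ n) h)
    {σ : GQ} (hσ : σ ∈ A.inertiaSubgroupIn ℚ) {n : ℕ} (hn : ∀ h, σ (x h) = (x ^ n) h)
    {ζ' : Qb} (hζ' : ζ' ^ p = 1) : σ ζ' = ζ' ^ n := by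
  have hLO : A.LiesOverPrime p := hA
  have hint' : ∀ r : R₀, A.valuation (algebraMap R₀ Qb r) ≤ 1 :=
    fun r => (A.valuation_le_one_iff _).mpr (hint r)
  have hp0 : (p : Qb) ≠ 0 := by exact_mod_cast hp.ne_zero
  obtain ⟨b₀, hmax, hc0, hγ⟩ := exists_max_coord A hp hA hint hfix x hx1 hxp hconn hstab
  set c₀ : Qb := x b₀ - algebraMap R₀ Qb (Coalgebra.counit b₀) with hc₀
  have : NeZero (p : Qb) := ⟨hp0⟩
  have : NeZero p := ⟨hp.ne_zero⟩
  obtain ⟨ζ, hζ⟩ : ∃ ζ : Qb, IsPrimitiveRoot ζ p := HasEnoughRootsOfUnity.exists_primitiveRoot Qb p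
  -- `v(c₀) = v(1 - ζ)`
  have hγ₀ := valuation_one_sub_zeta_pow A hp hζ
  have hq : p - 1 ≠ 0 := by have := hp.two_le; omega
  have hvc : A.valuation c₀ = A.valuation (1 - ζ) := by
    have : A.valuation c₀ ^ (p - 1) = A.valuation (1 - ζ) ^ (p - 1) := by rw [hγ, hγ₀]
    exact (pow_left_inj₀ zero_le zero_le hq).1 this
  have hz0 : 1 - ζ ≠ 0 := one_sub_zeta_ne_zero hp hζ
  have hvz1 : A.valuation (1 - ζ) < 1 :=
    (A.mem_nonunits_iff).mp (one_sub_zeta_mem_nonunits A hp hA hζ)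
  have hvz0 : A.valuation (1 - ζ) ≠ 0 := (Valuation.ne_zero_iff _).mpr hz0
  -- the cyclotomic exponent of `σ`
  obtain ⟨k, -, hk⟩ := hζ.eq_pow_of_pow_eq_one (by rw [← map_pow, hζ.pow_eq_one, map_one] : (σ ζ) ^ p = 1)
  have hσk : σ ζ = ζ ^ k := hk.symm
  set t : Qb := σ (1 - ζ) / (1 - ζ) with ht
  have htk : A.valuation (t - (k : Qb)) < 1 :=
    (A.mem_nonunits_iff).mp (apply_one_sub_zeta_div_sub_natCast_mem_nonunits A hp hA hζ hσk)
  have hkA : A.valuation (k : Qb) ≤ 1 := (A.valuation_le_one_iff _).mpr (natCast_mem A k)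
  have htA : A.valuation t ≤ 1 := by
    have : t = (t - (k : Qb)) + (k : Qb) := by ring
    rw [this]
    exact (A.valuation.map_add _ _).trans (max_le htk.le hkA)
  -- the unit `u = c₀ / (1 - ζ)`
  set u : Qb := c₀ / (1 - ζ) with hu
  have hvu : A.valuation u = 1 := by
    rw [hu, map_div₀, hvc, div_self hvz0]
  have huA : u ∈ A := (A.valuation_le_one_iff _).mp hvu.le
  have hσu : A.valuation (σ u - u) < 1 :=
    (A.mem_nonunits_iff).mp (Fermat.Agent.S05.apply_sub_mem_nonunits_of_mem_inertiaSubgroupIn hσ huA)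
  -- two expressions for `σ c₀`
  have hc₀u : c₀ = u * (1 - ζ) := by rw [hu, div_mul_cancel₀ _ hz0]
  have hσ1 : σ c₀ = σ u * t * (1 - ζ) := by
    rw [hc₀u, map_mul, ht]
    field_simp
  set E : Qb := (powErr (lin x - 1) n) b₀ with hE
  have hσ2 : σ c₀ = (n : Qb) * c₀ + E := by
    rw [hc₀, map_sub, hfix, hn b₀, ← pow_apply_eq x n b₀]
  have hγ1 : A.valuation (1 - ζ) ≤ 1 := hvz1.le
  have hEv : A.valuation E ≤ A.valuation (1 - ζ) * A.valuation (1 - ζ) := by
    have hz : ∀ h, A.valuation ((lin x - 1 : WithConv (H →ₗ[R₀] Qb)) h) ≤ A.valuation (1 - ζ) := by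
      intro h
      rw [← hvc]
      exact hmax h
    exact powErr_bdd A.valuation hint' hγ1 hz n b₀
  -- `(n - k) u = (σ u - u) t + u (t - k) - E / (1 - ζ)`
  have hkey : ((n : Qb) - (k : Qb)) * u = (σ u - u) * t + u * (t - (k : Qb)) - E / (1 - ζ) := by
    have h1 : (n : Qb) * c₀ + E = σ u * t * (1 - ζ) := by rw [← hσ2, hσ1]
    rw [hc₀u] at h1
    field_simp
    linear_combination h1
  have hv1 : A.valuation ((σ u - u) * t) < 1 := by
    rw [map_mul]
    exact mul_lt_one_of_nonneg_of_lt_one_left zero_le hσu htA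
  have hv2 : A.valuation (u * (t - (k : Qb))) < 1 := by
    rw [map_mul, hvu, one_mul]
    exact htk
  have hv3 : A.valuation (E / (1 - ζ)) < 1 := by
    rw [map_div₀]
    calc A.valuation E / A.valuation (1 - ζ)
        ≤ A.valuation (1 - ζ) * A.valuation (1 - ζ) / A.valuation (1 - ζ) :=
          div_le_div_of_nonneg_right hEv zero_le
      _ = A.valuation (1 - ζ) := by rw [mul_div_assoc, div_self hvz0, mul_one]
      _ < 1 := hvz1
  have hv : A.valuation (((n : Qb) - (k : Qb)) * u) < 1 := by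
    rw [hkey]
    refine lt_of_le_of_lt (A.valuation.map_sub _ _) (max_lt ?_ hv3)
    exact lt_of_le_of_lt (A.valuation.map_add _ _) (max_lt hv1 hv2)
  rw [map_mul, hvu, mul_one] at hv
  have hdvd : (p : ℤ) ∣ (n : ℤ) - (k : ℤ) := by
    apply (Fermat.Agent.S05.intCast_mem_nonunits_iff hp hLO _).mp
    rw [A.mem_nonunits_iff]
    push_cast
    exact hv
  have hmod : n % p = k % p := by
    have h1 : (k : ℤ) ≡ (n : ℤ) [ZMOD (p : ℤ)] := (Int.modEq_iff_dvd).mpr hdvd
    have h2 : k ≡ n [MOD p] := Int.natCast_modEq_iff.mp h1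
    exact h2.symm
  -- conclusion for an arbitrary `p`-th root of unity
  obtain ⟨j, -, hj⟩ := hζ.eq_pow_of_pow_eq_one hζ'
  have h3 : ζ ^ k = ζ ^ n := by
    rw [pow_eq_pow_mod k hζ.pow_eq_one, pow_eq_pow_mod n hζ.pow_eq_one, hmod]
  rw [← hj, map_pow, hσk, h3, ← pow_mul, ← pow_mul, mul_comm]

end Main

end Fermat.Agent.GP.Flat.TameWeight
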