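/-
GATE-P (S56 long shot) / [P-FLAT] TAME WEIGHT, part 3 (helper90): `inertia_char_eq_cyclotomic` in
the shape of the frozen `GaloisRepAdic.IsFlatAt`: base ring `GaloisRep.ratLocalizedAt p = ℤ_(p)`,
points transported to a module `M` along an additive, Galois-equivariant bijection `e`.
-/
import Fermat.Agent.GP.Flat.TameWeight.Level1
import Fermat.Prelude.Def_GaloisRep_Flat

set_option autoImplicit false

namespace Fermat.Agent.GP.Flat.TameWeight

open Fermat.Agent.Common_helper32 Fermat.Agent.GL.Local.InertiaField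
open Fermat.Agent.GP.Flat.LemmaF WithConv GaloisRep

section Base

variable (A : ValuationSubring Qb) {p : ℕ} (hp : p.Prime) (hA : A.LiesOverPrime p)

include hp hA in
/-- `ℤ_(p) ⊆ A` for every place `A | p`. -/
theorem ratLocalizedAt_mem (r : ratLocalizedAt p) :
    algebraMap (ratLocalizedAt p) Qb r ∈ A := by
  show algebraMap ℚ Qb (r : ℚ) ∈ A
  have hden : ¬ p ∣ (r : ℚ).den := by
    intro hdvd
    have hcop : (r : ℚ).den.Coprime p := r.2
    have := Nat.Coprime.eq_one_of_dvd hcop.symm hdvd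
    exact hp.one_lt.ne' this
  have h1 : algebraMap ℚ Qb (r : ℚ) = ((r : ℚ).num : Qb) * (((r : ℚ).den : ℕ) : Qb)⁻¹ := by
    conv_lhs => rw [← Rat.num_div_den (r : ℚ)]
    rw [map_div₀, map_intCast, map_natCast, div_eq_mul_inv]
  rw [h1]
  exact A.mul_mem _ _ (intCast_mem A _)
    (Fermat.Agent.S05.natCast_inv_mem_of_not_dvd hp hA hden)

theorem ratLocalizedAt_fixed (σ : GQ) (r : ratLocalizedAt p) :
    σ (algebraMap (ratLocalizedAt p) Qb r) = algebraMap (ratLocalizedAt p) Qb r := by
  show σ (algebraMap ℚ Qb (r : ℚ)) = algebraMap ℚ Qb (r : ℚ)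
  exact σ.commutes _

end Base

section Transport

variable (A : ValuationSubring Qb) {p : ℕ} (hp : p.Prime) (hA : A.LiesOverPrime p)
variable {H : Type*} [CommRing H] [Bialgebra (ratLocalizedAt p) H]
  [Module.Finite (ratLocalizedAt p) H]

/-- the Galois conjugate of a point. -/
noncomputable def conjPoint (σ : GQ) (x : WithConv (H →ₐ[ratLocalizedAt p] Qb)) :
    WithConv (H →ₐ[ratLocalizedAt p] Qb) :=
  toConv
    { toRingHom := ((σ : Qb ≃+* Qb) : Qb →+* Qb).comp (x.ofConv : H →+* Qb)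
      commutes' := fun r => by
        show σ (x.ofConv (algebraMap (ratLocalizedAt p) H r)) = _
        rw [AlgHom.commutes]
        exact ratLocalizedAt_fixed σ r }

omit [Module.Finite (ratLocalizedAt p) H] in
theorem conjPoint_apply (σ : GQ) (x : WithConv (H →ₐ[ratLocalizedAt p] Qb)) (h : H) :
    conjPoint σ x h = σ (x h) := rfl

include hp hA in
/-- **TAME WEIGHT, level 1, frozen shape.**  `(H, e)` as in `GaloisRepAdic.IsFlatAt` (`e` additive
and equivariant for an action `act` of `G_ℚ` on `M`).  Let `w ∈ M` be non-zero, killed by `p`,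
CONNECTED (the point `e.symm w` is `≡ ε` modulo `𝔪_A`), with `I_A`-stable line:
`act σ w = n(σ) • w`.  Then `σ ζ = ζ ^ n(σ)` for every `p`-th root of unity `ζ`, `σ ∈ I_A`. -/
theorem inertia_char_of_equiv {M : Type*} [AddCommGroup M]
    (e : WithConv (H →ₐ[ratLocalizedAt p] Qb) ≃ M)
    (he : ∀ f g : WithConv (H →ₐ[ratLocalizedAt p] Qb), e (f * g) = e f + e g)
    (act : GQ → M → M)
    (hact : ∀ (σ : GQ) (f g : WithConv (H →ₐ[ratLocalizedAt p] Qb)),
      (∀ h : H, g h = σ (f h)) → e g = act σ (e f))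
    (w : M) (hw : w ≠ 0) (hpw : p • w = 0)
    (hconn : ∀ h, (e.symm w) h - algebraMap (ratLocalizedAt p) Qb (Coalgebra.counit h) ∈
      A.nonunits)
    (hstab : ∀ σ ∈ A.inertiaSubgroupIn ℚ, ∃ n : ℕ, act σ w = n • w)
    {σ : GQ} (hσ : σ ∈ A.inertiaSubgroupIn ℚ) {n : ℕ} (hn : act σ w = n • w)
    {ζ : Qb} (hζ : ζ ^ p = 1) : σ ζ = ζ ^ n := by
  have he1 : e 1 = 0 := by
    have := he 1 1
    rw [mul_one] at this
    exact left_eq_add.mp this
  have hepow : ∀ (f : WithConv (H →ₐ[ratLocalizedAt p] Qb)) (k : ℕ), e (f ^ k) = k • e f := by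
    intro f k
    induction k with
    | zero => rw [pow_zero, zero_smul, he1]
    | succ k ih => rw [pow_succ, he, ih, succ_nsmul]
  set x := e.symm w with hx
  have hex : e x = w := e.apply_symm_apply w
  have hx1 : x ≠ 1 := by
    intro h1
    apply hw
    rw [← hex, h1, he1]
  have hxp : x ^ p = 1 := by
    apply e.injective
    rw [hepow, hex, hpw, he1]
  have hconj : ∀ (τ : GQ) (k : ℕ), act τ w = k • w → ∀ h, τ (x h) = (x ^ k) h := by
    intro τ k hk h
    have h1 : e (conjPoint τ x) = act τ (e x) := hact τ x (conjPoint τ x) (fun _ => rfl)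
    have h2 : conjPoint τ x = x ^ k := by
      apply e.injective
      rw [h1, hex, hk, hepow, hex]
    rw [← h2]
    rfl
  have hLO : (p : Qb) ∈ A.nonunits := hA
  refine inertia_char_eq_cyclotomic A hp hLO (ratLocalizedAt_mem A hp hA)
    (fun τ r => ratLocalizedAt_fixed τ r) x hx1 hxp hconn ?_ hσ (hconj σ n hn) hζ
  intro τ hτ
  obtain ⟨k, hk⟩ := hstab τ hτ
  exact ⟨k, hconj τ k hk⟩

end Transport

end Fermat.Agent.GP.Flat.TameWeight
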