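/-
GATE-P (S56 long shot) / [P-FLAT] TAME WEIGHT, part 4 (helper90): a STABLE `k`-LINE of connected
points.

`(H, e, act)` as in the frozen `GaloisRepAdic.IsFlatAt`, `M` a vector space over a finite field `k`
of characteristic `p` on which `act` is `k`-linear, `w ≠ 0` spanning a line stable under the
decomposition group `D_A` (`A | p`), all of whose points are CONNECTED (`≡ ε` modulo `𝔪_A`).  Then
the inertia group acts on the line through the mod-`p` cyclotomic character
(`line_char_eq_cyclotomic`).  Consequence for a flat `ρ̄` with `det = ω`: "reducible at `p` with both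
diagonal characters ramified" is impossible (the quotient character is `det/ω = 1` on inertia).

Proof (Frobenius step): pick a multiple `y₀` of `w` of MINIMAL depth `c₀`.  For `σ ∈ I_A` with
eigenvalue `a`, and `φ` a Frobenius element, `φ σ φ⁻¹` has eigenvalue `a` again (the line is
`D_A`-stable) and `σ^p` has eigenvalue `a^p`; the two conjugate points agree modulo depth `< c₀` by
the tame relation `v(φσφ⁻¹ q - σ^p q) < v(q)` (`tame_rel`), so `(a - a^p) • y₀` has depth `< c₀`,
hence vanishes.  So `a ∈ 𝔽_p` and level 1 (`inertia_char_of_equiv`) applies.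
-/
import Fermat.Agent.GP.Flat.TameWeight.Frozen
import Fermat.Agent.GE.E6.FrobCoord

set_option autoImplicit false
set_option linter.unusedSectionVars false

namespace Fermat.Agent.GP.Flat.TameWeight

open Fermat.Agent.Common_helper32 Fermat.Agent.GL.Local.InertiaField
open Fermat.Agent.GP.Flat.LemmaF WithConv GaloisRep

section Cong

variable (A : ValuationSubring Qb)

/-- congruence modulo the maximal ideal of `A`. -/
def CongA (a b : Qb) : Prop := A.valuation (a - b) < 1

variable {A}

theorem CongA.refl (a : Qb) : CongA A a a := by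
  unfold CongA; rw [sub_self, map_zero]; exact zero_lt_one

theorem CongA.symm {a b : Qb} (h : CongA A a b) : CongA A b a := by
  unfold CongA at *; rwa [← Valuation.map_neg, neg_sub]

theorem CongA.trans {a b c : Qb} (h1 : CongA A a b) (h2 : CongA A b c) : CongA A a c := by
  unfold CongA at *
  have : a - c = (a - b) + (b - c) := by ring
  rw [this]
  exact lt_of_le_of_lt (A.valuation.map_add _ _) (max_lt h1 h2)

theorem CongA.mul {a b c d : Qb} (ha : a ∈ A) (hd : d ∈ A) (h1 : CongA A a b) (h2 : CongA A c d) :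
    CongA A (a * c) (b * d) := by
  unfold CongA at *
  have : a * c - b * d = a * (c - d) + (a - b) * d := by ring
  rw [this]
  refine lt_of_le_of_lt (A.valuation.map_add _ _) (max_lt ?_ ?_)
  · rw [map_mul]
    exact mul_lt_one_of_nonneg_of_lt_one_right ((A.valuation_le_one_iff _).mpr ha) zero_le h2
  · rw [map_mul]
    exact mul_lt_one_of_nonneg_of_lt_one_left zero_le h1 ((A.valuation_le_one_iff _).mpr hd)

theorem CongA.mem_right {a b : Qb} (ha : a ∈ A) (h : CongA A a b) : b ∈ A := by
  have : b = a - (a - b) := by ring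
  rw [this]
  exact sub_mem ha ((A.valuation_le_one_iff _).mp (le_of_lt h))

theorem CongA.pow {a b : Qb} (ha : a ∈ A) (h : CongA A a b) (n : ℕ) : CongA A (a ^ n) (b ^ n) := by
  have hb : b ∈ A := h.mem_right ha
  induction n with
  | zero => simp only [pow_zero]; exact CongA.refl 1
  | succ n ih =>
    rw [pow_succ, pow_succ]
    exact CongA.mul (pow_mem ha n) hb ih h

end Cong

section TameRel

variable (A : ValuationSubring Qb) {p : ℕ} (hp : p.Prime) (hA : A.LiesOverPrime p)

include hp hA in
/-- the tame character `σ ↦ σ q / q mod 𝔪` only depends on the valuation of `q`. -/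
theorem congA_apply_div {σ : GQ} (hσ : σ ∈ A.inertiaSubgroupIn ℚ) {q q' : Qb} (hq : q ≠ 0)
    (hq' : q' ≠ 0) (hv : A.valuation q = A.valuation q') :
    CongA A (σ q / q) (σ q' / q') := by
  set u := q / q' with hu
  have hvu : A.valuation u = 1 := by
    rw [hu, map_div₀, hv, div_self ((Valuation.ne_zero_iff _).mpr hq')]
  have huA : u ∈ A := (A.valuation_le_one_iff _).mp hvu.le
  have hu0 : u ≠ 0 := div_ne_zero hq hq'
  have h1 : A.valuation (σ u - u) < 1 :=
    (A.mem_nonunits_iff).mp (Fermat.Agent.S05.apply_sub_mem_nonunits_of_mem_inertiaSubgroupIn hσ huA)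
  have hvr : A.valuation (σ q' / q') = 1 := by
    rw [map_div₀, Fermat.Agent.S13.Branch.valuation_apply_eq_of_mem_inertia A hp hA hσ q',
      div_self ((Valuation.ne_zero_iff _).mpr hq')]
  have hq0 : q = u * q' := by rw [hu, div_mul_cancel₀ _ hq']
  have h2 : σ q / q - σ q' / q' = (σ u - u) / u * (σ q' / q') := by
    rw [hq0, map_mul]
    field_simp
  unfold CongA
  rw [h2, map_mul, map_div₀, hvu, div_one, hvr, mul_one]
  exact h1

include hp hA in
/-- `σ ^ j q / q ≡ (σ q / q) ^ j` modulo `𝔪_A`, for `σ` in the inertia group. -/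
theorem congA_pow_apply_div {σ : GQ} (hσ : σ ∈ A.inertiaSubgroupIn ℚ) {q : Qb} (hq : q ≠ 0) (j : ℕ) :
    CongA A ((σ ^ j) q / q) ((σ q / q) ^ j) := by
  have hval : ∀ (τ : GQ), τ ∈ A.inertiaSubgroupIn ℚ → A.valuation (τ q / q) = 1 := by
    intro τ hτ
    rw [map_div₀, Fermat.Agent.S13.Branch.valuation_apply_eq_of_mem_inertia A hp hA hτ q,
      div_self ((Valuation.ne_zero_iff _).mpr hq)]
  induction j with
  | zero => simp only [pow_zero, AlgEquiv.one_apply, div_self hq]; exact CongA.refl 1
  | succ j ih =>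
    have hj : σ ^ j ∈ A.inertiaSubgroupIn ℚ := Subgroup.pow_mem _ hσ j
    set w := (σ ^ j) q / q with hw
    have hwA : w ∈ A := (A.valuation_le_one_iff _).mp (hval _ hj).le
    have hsA : σ q / q ∈ A := (A.valuation_le_one_iff _).mp (hval _ hσ).le
    have h1 : (σ ^ (j + 1)) q / q = σ w * (σ q / q) := by
      rw [pow_succ', hw, map_div₀]
      have hσq : σ q ≠ 0 := (map_ne_zero σ).mpr hq
      show σ ((σ ^ j) q) / q = σ ((σ ^ j) q) / σ q * (σ q / q)
      field_simp
    rw [h1, pow_succ]
    have h2 : CongA A (σ w) w :=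
      (A.mem_nonunits_iff).mp (Fermat.Agent.S05.apply_sub_mem_nonunits_of_mem_inertiaSubgroupIn hσ hwA)
    have hσwA : σ w ∈ A := (Fermat.Agent.S05.apply_mem_iff_of_mem_inertiaSubgroupIn hσ w).mpr hwA
    exact CongA.mul hσwA hsA (h2.trans ih) (CongA.refl _)

include hp hA in
/-- **Tame relation at `p`.**  `φ` a Frobenius element at `A | p`, `σ ∈ I_A`: `φ σ φ⁻¹` and `σ ^ p`
have the same tame character: `v(φ σ φ⁻¹ q - σ^p q) < v(q)` for every `q ≠ 0`. -/
theorem tame_rel {φ σ : GQ} (hφ : A.IsFrobeniusAt φ p) (hσ : σ ∈ A.inertiaSubgroupIn ℚ)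
    {q : Qb} (hq : q ≠ 0) :
    A.valuation ((φ * σ * φ⁻¹) q - (σ ^ p) q) < A.valuation q := by
  have hφD : φ ∈ A.decompositionSubgroup ℚ := hφ.mem_decompositionSubgroup
  have hφinvD : φ⁻¹ ∈ A.decompositionSubgroup ℚ := Subgroup.inv_mem _ hφD
  set q' := φ⁻¹ q with hq'
  have hq'0 : q' ≠ 0 := (map_ne_zero _).mpr hq
  have hvq' : A.valuation q' = A.valuation q :=
    Fermat.Agent.S13.Branch.valuation_apply_eq_of_mem_decomposition A hp hA hφinvD q
  have hφq' : φ q' = q := by
    rw [hq']
    show (φ * φ⁻¹) q = q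
    rw [mul_inv_cancel]; rfl
  set r := σ q' / q' with hr
  have hvr : A.valuation r = 1 := by
    rw [hr, map_div₀, Fermat.Agent.S13.Branch.valuation_apply_eq_of_mem_inertia A hp hA hσ q',
      div_self ((Valuation.ne_zero_iff _).mpr hq'0)]
  have hrA : r ∈ A := (A.valuation_le_one_iff _).mp hvr.le
  -- Frobenius on `r`
  have hfrob : CongA A (φ r) (r ^ p) := by
    have h1 := Fermat.Agent.GE.E6.residue_apply_of_isFrobeniusAt hφ hrA
    have h2 : IsLocalRing.residue A (⟨φ r, Fermat.Agent.GE.E6.apply_mem_of_isFrobeniusAt hφ hrA⟩ -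
        (⟨r, hrA⟩ : A) ^ p) = 0 := by
      rw [map_sub, map_pow, h1, sub_self]
    rw [IsLocalRing.residue_eq_zero_iff, A.valuation_lt_one_iff] at h2
    exact h2
  have hφr : φ r = (φ * σ * φ⁻¹) q / q := by
    rw [hr, map_div₀, hφq']
    rfl
  -- compare with `σ q / q`
  have h3 : CongA A (σ q / q) r := congA_apply_div A hp hA hσ hq hq'0 hvq'.symm
  have hsA : σ q / q ∈ A := h3.symm.mem_right hrA
  have h4 : CongA A ((σ q / q) ^ p) (r ^ p) := h3.pow hsA p
  have h5 : CongA A ((σ ^ p) q / q) ((σ q / q) ^ p) := congA_pow_apply_div A hp hA hσ hq p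
  have h6 : CongA A ((φ * σ * φ⁻¹) q / q) ((σ ^ p) q / q) := by
    rw [← hφr]
    exact hfrob.trans (h4.symm.trans h5.symm)
  unfold CongA at h6
  have h7 : (φ * σ * φ⁻¹) q - (σ ^ p) q = ((φ * σ * φ⁻¹) q / q - (σ ^ p) q / q) * q := by
    field_simp
  rw [h7, map_mul]
  have hvq0 : 0 < A.valuation q := zero_lt_iff.mpr ((Valuation.ne_zero_iff _).mpr hq)
  calc A.valuation ((φ * σ * φ⁻¹) q / q - (σ ^ p) q / q) * A.valuation q
      < 1 * A.valuation q := by
        exact (mul_lt_mul_iff_left₀ hvq0).mpr h6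
    _ = A.valuation q := one_mul _

end TameRel

section Sub

variable {R₀ : Type*} [CommRing R₀] {H : Type*} [AddCommGroup H] [Module R₀ H] [Coalgebra R₀ H]
variable {K : Type*} [Field K] [Algebra R₀ K]
variable {Γ₀ : Type*} [LinearOrderedCommGroupWithZero Γ₀] (v : Valuation K Γ₀)

/-- **Leading term of a difference.**  If `(1 + b') (1 + b) = 1` (so `1 + b` is the inverse point),
`|b| ≤ 1` and `|a - b'| ≤ δ`, then `|(1 + a)(1 + b) - 1| ≤ δ`. -/
theorem leading_sub {a b b' : WithConv (H →ₗ[R₀] K)} {δ : Γ₀}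
    (hinv : (1 + b') * (1 + b) = 1) (hb : ∀ h, v (b h) ≤ 1) (hab : ∀ h, v ((a - b') h) ≤ δ)
    (h : H) : v (((1 + a) * (1 + b) - 1) h) ≤ δ := by
  have h1 : (1 + a) * (1 + b) - 1 = (a - b') + (a - b') * b := by
    have : (1 + a) * (1 + b) = (1 + b') * (1 + b) + (a - b') * (1 + b) := by noncomm_ring
    rw [this, hinv]
    noncomm_ring
  rw [h1]
  show v ((a - b') h + ((a - b') * b) h) ≤ δ
  refine (v.map_add _ _).trans (max_le (hab h) ?_)
  calc v (((a - b') * b) h) ≤ δ * 1 := convMul_bdd v hab hb h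
    _ = δ := mul_one _

end Sub

section Prime

open Polynomial in
/-- in a field of characteristic `p`, the fixed points of Frobenius are the prime field. -/
theorem exists_natCast_of_pow_eq_self {k : Type*} [Field k] {p : ℕ} (hp : p.Prime) [CharP k p]
    {a : k} (ha : a ^ p = a) : ∃ n : ℕ, a = (n : k) := by
  classical
  by_contra hcon
  push Not at hcon
  have : Fact p.Prime := ⟨hp⟩
  set f : k[X] := X ^ p - X with hf
  have hf0 : f ≠ 0 := FiniteField.X_pow_card_sub_X_ne_zero k hp.one_lt
  have hdeg : f.natDegree = p := FiniteField.X_pow_card_sub_X_natDegree_eq k hp.one_lt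
  have hroot : ∀ b : k, b ^ p = b → b ∈ f.roots.toFinset := by
    intro b hb
    rw [Multiset.mem_toFinset, mem_roots hf0, IsRoot.def, hf, eval_sub, eval_pow, eval_X, hb,
      sub_self]
  set S : Finset k := (Finset.range p).image (fun n : ℕ => (n : k)) with hS
  have hScard : S.card = p := by
    rw [hS, Finset.card_image_of_injOn, Finset.card_range]
    intro m hm n hn hmn
    rw [Finset.coe_range, Set.mem_Iio] at hm hn
    have h1 : (m : k) = (n : k) := hmn
    rw [CharP.natCast_eq_natCast k p] at h1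
    exact Nat.ModEq.eq_of_lt_of_lt h1 hm hn
  have hSsub : insert a S ⊆ f.roots.toFinset := by
    intro b hb
    rw [Finset.mem_insert] at hb
    rcases hb with rfl | hb
    · exact hroot _ ha
    · obtain ⟨n, -, rfl⟩ := Finset.mem_image.mp hb
      apply hroot
      have h0 : frobenius k p (n : k) = (n : k) := map_natCast (frobenius k p) n
      rwa [frobenius_def] at h0
  have haS : a ∉ S := by
    intro h
    obtain ⟨n, -, hn⟩ := Finset.mem_image.mp h
    exact hcon n hn.symm
  have h1 : (insert a S).card = p + 1 := by rw [Finset.card_insert_of_notMem haS, hScard]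
  have h2 : (insert a S).card ≤ f.roots.toFinset.card := Finset.card_le_card hSsub
  have h3 : f.roots.toFinset.card ≤ f.roots.card := Multiset.toFinset_card_le _
  have h4 : f.roots.card ≤ p := hdeg ▸ card_roots' f
  omega

end Prime

section Line

variable (A : ValuationSubring Qb) {p : ℕ} (hp : p.Prime) (hA : A.LiesOverPrime p)
variable {H : Type*} [CommRing H] [Bialgebra (ratLocalizedAt p) H]
  [Module.Finite (ratLocalizedAt p) H]
variable {M : Type*} [AddCommGroup M]
  (e : WithConv (H →ₐ[ratLocalizedAt p] Qb) ≃ M)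
  (he : ∀ f g : WithConv (H →ₐ[ratLocalizedAt p] Qb), e (f * g) = e f + e g)
  (act : GQ → M → M)
  (hact : ∀ (σ : GQ) (f g : WithConv (H →ₐ[ratLocalizedAt p] Qb)),
    (∀ h : H, g h = σ (f h)) → e g = act σ (e f))

/-- the deviation of the point `e.symm y` from the identity, as a linear functional. -/
noncomputable def dev (y : M) : WithConv (H →ₗ[ratLocalizedAt p] Qb) := lin (e.symm y) - 1

omit [Module.Finite (ratLocalizedAt p) H] in
theorem dev_apply (y : M) (h : H) :
    dev e y h = (e.symm y) h - algebraMap (ratLocalizedAt p) Qb (Coalgebra.counit h) := rfl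

include he in
omit [Module.Finite (ratLocalizedAt p) H] in
theorem e_one : e 1 = 0 := by
  have := he 1 1
  rw [mul_one] at this
  exact left_eq_add.mp this

include he in
omit [Module.Finite (ratLocalizedAt p) H] in
theorem symm_add (y y' : M) : e.symm (y + y') = e.symm y * e.symm y' := by
  apply e.injective
  rw [he, e.apply_symm_apply, e.apply_symm_apply, e.apply_symm_apply]

include he in
omit [Module.Finite (ratLocalizedAt p) H] in
theorem symm_zero : e.symm 0 = 1 := by
  apply e.injective
  rw [e.apply_symm_apply, e_one e he]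

include he in
omit [Module.Finite (ratLocalizedAt p) H] in
theorem one_add_dev_add (y y' : M) : 1 + dev e (y + y') = (1 + dev e y) * (1 + dev e y') := by
  unfold dev
  rw [add_sub_cancel, add_sub_cancel, add_sub_cancel, symm_add e he, lin_mul]

include he in
omit [Module.Finite (ratLocalizedAt p) H] in
theorem dev_zero : dev e (0 : M) = 0 := by
  unfold dev
  rw [symm_zero e he, lin_one, sub_self]

include hact in
omit [Module.Finite (ratLocalizedAt p) H] in
theorem symm_act (σ : GQ) (y : M) : e.symm (act σ y) = conjPoint σ (e.symm y) := by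
  apply e.injective
  rw [e.apply_symm_apply, hact σ (e.symm y) (conjPoint σ (e.symm y)) (fun _ => rfl),
    e.apply_symm_apply]

include hact in
omit [Module.Finite (ratLocalizedAt p) H] in
theorem dev_act (σ : GQ) (y : M) (h : H) : dev e (act σ y) h = σ (dev e y h) := by
  rw [dev_apply, dev_apply, symm_act e act hact, conjPoint_apply, map_sub, ratLocalizedAt_fixed]

include hact in
omit [Module.Finite (ratLocalizedAt p) H] in
theorem act_mul (σ τ : GQ) (y : M) : act (σ * τ) y = act σ (act τ y) := by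
  apply e.symm.injective
  rw [symm_act e act hact, symm_act e act hact, symm_act e act hact]
  rfl

include hact in
omit [Module.Finite (ratLocalizedAt p) H] in
theorem act_one (y : M) : act 1 y = y := by
  apply e.symm.injective
  rw [symm_act e act hact]
  rfl

section KLine

variable {k : Type*} [Field k] [CharP k p] [Finite k] [Module k M]

include hp hA he hact in
/-- **Frobenius step.**  `w ≠ 0` spans a `D_A`-stable `k`-line of connected points.  Then every
eigenvalue `a` of an inertia element on the line satisfies `a ^ p = a`. -/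
theorem line_eigen_pow_eq
    (hactk : ∀ (σ : GQ) (a : k) (m : M), act σ (a • m) = a • act σ m)
    (w : M) (hw : w ≠ 0)
    (hline : ∀ σ ∈ A.decompositionSubgroup ℚ, ∃ a : k, act σ w = a • w)
    (hconn : ∀ (a : k) (h : H), (e.symm (a • w)) h -
      algebraMap (ratLocalizedAt p) Qb (Coalgebra.counit h) ∈ A.nonunits)
    {σ : GQ} (hσ : σ ∈ A.inertiaSubgroupIn ℚ) {a : k} (ha : act σ w = a • w) : a ^ p = a := by
  classical
  have hint' : ∀ r : ratLocalizedAt p, A.valuation (algebraMap (ratLocalizedAt p) Qb r) ≤ 1 :=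
    fun r => (A.valuation_le_one_iff _).mpr (ratLocalizedAt_mem A hp hA r)
  -- depth of the multiples of `w`
  have hmaxex : ∀ c : k, ∃ b : H, ∀ h, A.valuation (dev e (c • w) h) ≤ A.valuation (dev e (c • w) b) :=
    fun c => exists_max A.valuation hint' (dev e (c • w)).ofConv
  choose bb hbb using hmaxex
  let dep : k → (ValuationSubring.ValueGroup A) := fun c => A.valuation (dev e (c • w) (bb c))
  have : Nonempty {c : k // c ≠ 0} := ⟨⟨1, one_ne_zero⟩⟩
  obtain ⟨⟨a₀, ha₀⟩, hmin⟩ := Finite.exists_min (fun c : {c : k // c ≠ 0} => dep c.1)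
  have hmin' : ∀ c : k, c ≠ 0 → dep a₀ ≤ dep c := fun c hc => hmin ⟨c, hc⟩
  set y₀ : M := a₀ • w with hy₀
  have hy₀0 : y₀ ≠ 0 := smul_ne_zero ha₀ hw
  -- the minimal depth is positive
  have hc₀pos : 0 < dep a₀ := by
    rw [zero_lt_iff]
    intro h0
    apply hy₀0
    have hz : dev e y₀ = 0 := by
      ext h
      have h1 := hbb a₀ h
      have h2 : A.valuation (dev e (a₀ • w) (bb a₀)) = 0 := h0
      rw [h2, le_zero_iff, map_eq_zero] at h1
      exact h1
    have h3 : lin (e.symm y₀) = 1 := sub_eq_zero.mp hz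
    have h4 : e.symm y₀ = 1 := lin_injective (by rw [h3, lin_one])
    rw [← e.apply_symm_apply y₀, h4, e_one e he]
  -- Frobenius
  obtain ⟨φ, hφ⟩ := exists_isFrobeniusAt_of_liesOver A p hp hA
  have hφD : φ ∈ A.decompositionSubgroup ℚ := hφ.mem_decompositionSubgroup
  obtain ⟨b, hb⟩ := hline φ hφD
  obtain ⟨b', hb'⟩ := hline φ⁻¹ (Subgroup.inv_mem _ hφD)
  have hbb' : b' * b = 1 := by
    have h1 : act (φ * φ⁻¹) w = w := by rw [mul_inv_cancel, act_one e act hact]
    rw [act_mul e act hact, hb', hactk, hb, smul_smul] at h1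
    have h2 : (b' * b - 1) • w = 0 := by rw [sub_smul, one_smul, h1, sub_self]
    rcases smul_eq_zero.mp h2 with h3 | h3
    · exact sub_eq_zero.mp h3
    · exact absurd h3 hw
  set τ : GQ := φ * σ * φ⁻¹ with hτ
  have hτw : act τ w = a • w := by
    rw [hτ, act_mul e act hact, act_mul e act hact, hb', hactk, ha, hactk, hactk, hb, smul_smul,
      smul_smul]
    congr 1
    rw [mul_comm b' a, mul_assoc, hbb', mul_one]
  have hpow : ∀ j : ℕ, act (σ ^ j) w = a ^ j • w := by
    intro j
    induction j with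
    | zero => rw [pow_zero, pow_zero, one_smul, act_one e act hact]
    | succ j ih => rw [pow_succ', act_mul e act hact, ih, hactk, ha, smul_smul, pow_succ]
  -- the two multiples
  have hy₂ : act τ y₀ = (a * a₀) • w := by rw [hy₀, hactk, hτw, smul_smul, mul_comm]
  have hy₁ : act (σ ^ p) y₀ = (a ^ p * a₀) • w := by rw [hy₀, hactk, hpow, smul_smul, mul_comm]
  -- coordinates differ by less than the minimal depth
  have hdiff : ∀ h, A.valuation ((dev e ((a * a₀) • w) - dev e ((a ^ p * a₀) • w)) h) < dep a₀ := by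
    intro h
    have h1 : (dev e ((a * a₀) • w) - dev e ((a ^ p * a₀) • w)) h =
        τ (dev e y₀ h) - (σ ^ p) (dev e y₀ h) := by
      rw [← hy₂, ← hy₁]
      show dev e (act τ y₀) h - dev e (act (σ ^ p) y₀) h = _
      rw [dev_act e act hact, dev_act e act hact]
    rw [h1]
    by_cases hq : dev e y₀ h = 0
    · rw [hq, map_zero, map_zero, sub_self, map_zero]
      exact hc₀pos
    · exact lt_of_lt_of_le (tame_rel A hp hA hφ hσ hq) (hbb a₀ h)
  obtain ⟨b₁, hb₁⟩ := exists_max A.valuation hint'
    (dev e ((a * a₀) • w) - dev e ((a ^ p * a₀) • w)).ofConv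
  -- leading term of the difference
  have hinv : (1 + dev e ((a ^ p * a₀) • w)) * (1 + dev e ((-(a ^ p * a₀)) • w)) = 1 := by
    rw [← one_add_dev_add e he, ← add_smul, add_neg_cancel, zero_smul, dev_zero e he, add_zero]
  have hb1 : ∀ h, A.valuation (dev e ((-(a ^ p * a₀)) • w) h) ≤ 1 := by
    intro h
    exact le_of_lt ((A.mem_nonunits_iff).mp (hconn _ h))
  have hlead := fun h => leading_sub A.valuation hinv hb1 hb₁ h
  have hsum : (1 + dev e ((a * a₀) • w)) * (1 + dev e ((-(a ^ p * a₀)) • w)) - 1 =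
      dev e ((a * a₀ - a ^ p * a₀) • w) := by
    rw [← one_add_dev_add e he, ← add_smul, add_sub_cancel_left, sub_eq_add_neg]
  by_contra hne
  have ha₁ : a * a₀ - a ^ p * a₀ ≠ 0 := by
    intro h0
    apply hne
    have : (a - a ^ p) * a₀ = 0 := by rw [sub_mul, h0]
    rcases mul_eq_zero.mp this with h1 | h1
    · exact (sub_eq_zero.mp h1).symm
    · exact absurd h1 ha₀
  have h1 := hmin' _ ha₁
  have h2 : dep (a * a₀ - a ^ p * a₀) ≤
      A.valuation ((dev e ((a * a₀) • w) - dev e ((a ^ p * a₀) • w)) b₁) := by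
    have := hlead (bb (a * a₀ - a ^ p * a₀))
    rw [hsum] at this
    exact this
  exact absurd (lt_of_le_of_lt (h1.trans h2) (hdiff b₁)) (lt_irrefl _)

include hp hA he hact in
/-- **TAME WEIGHT for a stable `k`-line.**  `(H, e, act)` as in the frozen `IsFlatAt`, `M` a vector
space over a finite field `k` of characteristic `p` with `act` `k`-linear, `w ≠ 0` spanning a
`D_A`-stable `k`-line all of whose points are connected.  Then the inertia group `I_A` acts on the
line through the mod-`p` cyclotomic character. -/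
theorem line_char_eq_cyclotomic
    (hactk : ∀ (σ : GQ) (a : k) (m : M), act σ (a • m) = a • act σ m)
    (w : M) (hw : w ≠ 0)
    (hline : ∀ σ ∈ A.decompositionSubgroup ℚ, ∃ a : k, act σ w = a • w)
    (hconn : ∀ (a : k) (h : H), (e.symm (a • w)) h -
      algebraMap (ratLocalizedAt p) Qb (Coalgebra.counit h) ∈ A.nonunits)
    {σ : GQ} (hσ : σ ∈ A.inertiaSubgroupIn ℚ) {n : ℕ} (hn : ∀ ζ : Qb, ζ ^ p = 1 → σ ζ = ζ ^ n) :
    act σ w = (n : k) • w := by
  have hID : ∀ τ ∈ A.inertiaSubgroupIn ℚ, τ ∈ A.decompositionSubgroup ℚ := fun τ hτ =>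
    Fermat.Agent.S05.mem_decompositionSubgroup_of_mem_inertiaSubgroupIn hτ
  -- every inertia element acts by a natural number
  have hstab : ∀ τ ∈ A.inertiaSubgroupIn ℚ, ∃ m : ℕ, act τ w = m • w := by
    intro τ hτ
    obtain ⟨a, ha⟩ := hline τ (hID τ hτ)
    have hap := line_eigen_pow_eq A hp hA e he act hact hactk w hw hline hconn hτ ha
    obtain ⟨m, hm⟩ := exists_natCast_of_pow_eq_self hp hap
    exact ⟨m, by rw [ha, hm, Nat.cast_smul_eq_nsmul]⟩
  obtain ⟨m, hm⟩ := hstab σ hσ
  have hpw : p • w = 0 := by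
    rw [← Nat.cast_smul_eq_nsmul k, CharP.cast_eq_zero, zero_smul]
  have hconn1 : ∀ h, (e.symm w) h - algebraMap (ratLocalizedAt p) Qb (Coalgebra.counit h) ∈
      A.nonunits := by
    intro h
    have := hconn 1 h
    rwa [one_smul] at this
  have hp0 : (p : Qb) ≠ 0 := by exact_mod_cast hp.ne_zero
  have : NeZero (p : Qb) := ⟨hp0⟩
  have : NeZero p := ⟨hp.ne_zero⟩
  obtain ⟨ζ, hζ⟩ : ∃ ζ : Qb, IsPrimitiveRoot ζ p := HasEnoughRootsOfUnity.exists_primitiveRoot Qb p
  have h1 : σ ζ = ζ ^ m :=
    inertia_char_of_equiv A hp hA e he act hact w hw hpw hconn1 hstab hσ hm hζ.pow_eq_one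
  have h2 : ζ ^ n = ζ ^ m := by rw [← hn ζ hζ.pow_eq_one, h1]
  have h3 : n % p = m % p := by
    rw [pow_eq_pow_mod n hζ.pow_eq_one, pow_eq_pow_mod m hζ.pow_eq_one] at h2
    exact hζ.pow_inj (Nat.mod_lt _ hp.pos) (Nat.mod_lt _ hp.pos) h2
  have h4 : (n : k) = (m : k) := (CharP.natCast_eq_natCast k p).mpr h3
  rw [hm, h4, Nat.cast_smul_eq_nsmul]

end KLine

end Line

end Fermat.Agent.GP.Flat.TameWeight
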