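/-
GATE-P / S56 [P-FLAT] node S56-FLAT-TAMEWEIGHT, file 5 (helper90): the PLUG.

The tame-weight binder `hTW` of `Cases.cases_of_tameWeight` / `CasesFrozen.cases_frozen`
(helper36) is discharged from the frozen flatness predicate.

* `exists_pow_of_galois` : every `σ ∈ G_ℚ` raises the `p`-th roots of unity to some power `n`.
* `level_line_char` : at a flat level `V/IV` carrying a `k`-structure commuting with Galois, a
  `D_A`-stable `k`-line inside `(I_A - 1)(V/IV)` (additive closure form) is acted on by inertia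
  through the mod-`p` cyclotomic character.
* `tameWeight_of_isFlatAt` : for a residual representation `ρbar` over `k` with
  `(ofResidualGaloisRep ρbar).IsFlatAt p` and the frozen `DetIsCyclotomic`: the binder `hTW`.
* `cases_flat` : `CasesFrozen.cases_frozen` without the binder `hTW`.
-/
import Mathlib
import Fermat.Agent.GP.Flat.TameWeight.Line
import Fermat.Agent.GP.Flat.AugConn
import Fermat.Agent.GP.Flat.CasesFrozen

set_option autoImplicit false

open Fermat.Agent.Common_helper32 Module Polynomial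

namespace Fermat.Agent.GP.Flat.TameWeight.Plug

open Fermat.Agent.GP.Flat.TameWeight Fermat.Agent.GP.Flat.AugConn Fermat.Agent.GP.Flat.Cases

/-- every Galois automorphism raises the `p`-th roots of unity to a common power. -/
theorem exists_pow_of_galois {p : ℕ} (hp : p.Prime) (σ : GQ) :
    ∃ n : ℕ, ∀ μ : Qb, μ ^ p = 1 → σ μ = μ ^ n := by
  have hp0 : (p : Qb) ≠ 0 := by exact_mod_cast hp.ne_zero
  have : NeZero (p : Qb) := ⟨hp0⟩
  have : NeZero p := ⟨hp.ne_zero⟩
  obtain ⟨ζ, hζ⟩ : ∃ ζ : Qb, IsPrimitiveRoot ζ p := HasEnoughRootsOfUnity.exists_primitiveRoot Qb p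
  have h1 : (σ ζ) ^ p = 1 := by rw [← map_pow, hζ.pow_eq_one, map_one]
  obtain ⟨n, -, hn⟩ := hζ.eq_pow_of_pow_eq_one h1
  refine ⟨n, fun μ hμ => ?_⟩
  obtain ⟨i, -, rfl⟩ := hζ.eq_pow_of_pow_eq_one hμ
  rw [map_pow, ← hn, ← pow_mul, ← pow_mul, mul_comm]

section Level

variable {R : Type} [CommRing R] [IsLocalRing R] (ρ : GaloisRepAdic R) {p : ℕ}

/-- **(L5) at a flat level.**  `ρ` flat at `p`, `I` an ideal of finite index, `k` a finite field of
characteristic `p` acting on `V/IV` compatibly with Galois.  A `D_A`-stable `k`-line `k w` inside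
the additive closure of `(I_A - 1)(V/IV)` is acted on by `I_A` through the mod-`p` cyclotomic
character. -/
theorem level_line_char (hp : p.Prime) (hflat : ρ.IsFlatAt p) (I : Ideal R)
    (hI : Finite (R ⧸ I)) (A : ValuationSubring Qb) (hA : A.LiesOverPrime p)
    {k : Type*} [Field k] [CharP k p] [Finite k]
    [Module k (ρ.V ⧸ (I • (⊤ : Submodule R ρ.V)))]
    (hactk : ∀ (σ : GQ) (a : k) (m : ρ.V ⧸ (I • (⊤ : Submodule R ρ.V))),
      ρ.levelAction I σ (a • m) = a • ρ.levelAction I σ m)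
    (w : ρ.V ⧸ (I • (⊤ : Submodule R ρ.V))) (hw : w ≠ 0)
    (hline : ∀ σ ∈ A.decompositionSubgroup ℚ, ∃ a : k, ρ.levelAction I σ w = a • w)
    (haug : ∀ a : k, a • w ∈ AddSubgroup.closure
      {u : ρ.V ⧸ (I • (⊤ : Submodule R ρ.V)) | ∃ σ ∈ A.inertiaSubgroupIn ℚ, ∃ u',
        u = ρ.levelAction I σ u' - u'})
    {σ : GQ} (hσ : σ ∈ A.inertiaSubgroupIn ℚ) {n : ℕ}
    (hn : ∀ ζ : Qb, ζ ^ p = 1 → σ ζ = ζ ^ n) :
    ρ.levelAction I σ w = (n : k) • w := by
  obtain ⟨_, hH⟩ := hflat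
  obtain ⟨H, _, _, hfin, _, _, e, he_mul, he_equiv⟩ := hH I hI
  have := hfin
  have hV : ∀ u : ρ.V ⧸ (I • (⊤ : Submodule R ρ.V)), p • u = 0 := by
    intro u
    rw [← Nat.cast_smul_eq_nsmul k, CharP.cast_eq_zero, zero_smul]
  have hconn : ∀ (a : k) (h : H), (e.symm (a • w)) h -
      algebraMap (GaloisRep.ratLocalizedAt p) Qb (Coalgebra.counit h) ∈ A.nonunits := by
    intro a h
    have h1 : a • w ∈ connSubgroupFrozen hp e he_mul hV A hA :=
      aug_le_connSubgroup A e (fun σ u => ρ.levelAction I σ u) hp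
        (Fermat.Agent.GP.Flat.AugInv.algebraMap_ratLocalizedAt_mem hp A hA)
        (fun σ r => Fermat.Agent.GP.Flat.AugInv.apply_algebraMap_ratLocalizedAt σ r)
        he_mul he_equiv hV (haug a)
    exact A.mem_nonunits_iff.mpr
      ((mem_connSubgroupFrozen_iff hp e he_mul hV A hA (a • w)).1 h1 h)
  exact line_char_eq_cyclotomic A hp hA e he_mul (fun σ u => ρ.levelAction I σ u) he_equiv
    hactk w hw hline hconn hσ hn

end Level

section Adic

variable {k : Type} [Field k] (ρ : GaloisRepAdic k) {p : ℕ}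

/-- a field is finite as soon as its residue field is. -/
theorem finite_of_finite_residueField (h : Finite (IsLocalRing.ResidueField k)) : Finite k :=
  Finite.of_injective (IsLocalRing.residue k) (IsLocalRing.residue k).injective

/-- **(L5) for a flat representation over a field** (level `I = ⊥`): on a `D_A`-stable line inside
`(I_A - 1)V` the inertia group acts through the mod-`p` cyclotomic character. -/
theorem tameWeight_adic (hp : p.Prime) [CharP k p] (hflat : ρ.IsFlatAt p)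
    (A : ValuationSubring Qb) (hA : A.LiesOverPrime p)
    (L : Submodule k ρ.V) (hL1 : finrank k L = 1)
    (hLD : ∀ g ∈ A.decompositionSubgroup ℚ, ∀ v ∈ L, ρ.ρ g v ∈ L) (hLaug : L ≤ aug ρ.ρ A)
    {s : GQ} (hs : s ∈ A.inertiaSubgroupIn ℚ) {n : ℕ}
    (hn : ∀ ζ : Qb, ζ ^ p = 1 → s ζ = ζ ^ n) :
    ∀ v ∈ L, ρ.ρ s v = (n : k) • v := by
  intro v hv
  have hkfin : Finite k := finite_of_finite_residueField hflat.1
  by_cases hv0 : v = 0
  · subst hv0; rw [map_zero, smul_zero]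
  -- the level `I = ⊥`
  set N : Submodule k ρ.V := (⊥ : Ideal k) • (⊤ : Submodule k ρ.V) with hN
  have hNbot : N = ⊥ := Submodule.bot_smul _
  have hI : Finite (k ⧸ (⊥ : Ideal k)) :=
    Finite.of_surjective (Ideal.Quotient.mk (⊥ : Ideal k)) Ideal.Quotient.mk_surjective
  have hmk_inj : ∀ x y : ρ.V, (Submodule.Quotient.mk x : ρ.V ⧸ N) = Submodule.Quotient.mk y →
      x = y := by
    intro x y hxy
    have := (Submodule.Quotient.eq N).1 hxy
    rw [hNbot, Submodule.mem_bot, sub_eq_zero] at this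
    exact this
  have hlev : ∀ (σ : GQ) (x : ρ.V), ρ.levelAction ⊥ σ (Submodule.Quotient.mk x) =
      Submodule.Quotient.mk (ρ.ρ σ x) := fun σ x => rfl
  -- every element of `L` is a multiple of `v`
  have hLv : ∀ x ∈ L, ∃ c : k, c • v = x := by
    intro x hx
    obtain ⟨c, hc⟩ := (finrank_eq_one_iff_of_nonzero' (⟨v, hv⟩ : L)
      (fun h => hv0 (congrArg Subtype.val h))).1 hL1 ⟨x, hx⟩
    exact ⟨c, congrArg Subtype.val hc⟩
  -- the augmentation submodule maps into the additive closure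
  have haugcl : ∀ x ∈ aug ρ.ρ A, ∀ c : k,
      (Submodule.Quotient.mk (c • x) : ρ.V ⧸ N) ∈ AddSubgroup.closure
        {u : ρ.V ⧸ N | ∃ σ ∈ A.inertiaSubgroupIn ℚ, ∃ u', u = ρ.levelAction ⊥ σ u' - u'} := by
    intro x hx
    unfold aug at hx
    induction hx using Submodule.span_induction with
    | mem x hx =>
      obtain ⟨t, ht, y, rfl⟩ := hx
      intro c
      refine AddSubgroup.subset_closure ⟨t, ht, Submodule.Quotient.mk (c • y), ?_⟩
      rw [hlev, ← Submodule.Quotient.mk_sub, smul_sub, map_smul]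
    | zero =>
      intro c
      rw [smul_zero, Submodule.Quotient.mk_zero]
      exact AddSubgroup.zero_mem _
    | add x y _ _ hx hy =>
      intro c
      rw [smul_add, Submodule.Quotient.mk_add]
      exact AddSubgroup.add_mem _ (hx c) (hy c)
    | smul d x _ hx =>
      intro c
      rw [smul_smul]
      exact hx (c * d)
  have hw : (Submodule.Quotient.mk v : ρ.V ⧸ N) ≠ 0 := by
    intro h
    rw [Submodule.Quotient.mk_eq_zero, hNbot, Submodule.mem_bot] at h
    exact hv0 h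
  have key := level_line_char ρ hp hflat ⊥ hI A hA (k := k)
    (fun σ a m => map_smul (ρ.levelAction ⊥ σ) a m) (Submodule.Quotient.mk v) hw
    (fun g hg => by
      obtain ⟨a, ha⟩ := hLv _ (hLD g hg v hv)
      exact ⟨a, by rw [hlev, ← ha, Submodule.Quotient.mk_smul]⟩)
    (fun a => by
      rw [← Submodule.Quotient.mk_smul]
      exact haugcl v (hLaug hv) a)
    hs hn
  rw [hlev, ← Submodule.Quotient.mk_smul] at key
  exact hmk_inj _ _ key

end Adic

section Residual

variable {k : Type} [Field k] (ρbar : ResidualGaloisRep k) (p : ℕ) [Fact p.Prime]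

/-- **The tame-weight binder from flatness.**  For `ρbar` flat at `p` (frozen predicate on
`ofResidualGaloisRep ρbar`) with cyclotomic determinant: on every `D_A`-stable line inside
`(I_A - 1)V` the inertia group acts through the determinant. -/
theorem tameWeight_of_isFlatAt
    (hdet : (GaloisRepAdic.ofResidualGaloisRep ρbar).DetIsCyclotomic p)
    (hflat : (GaloisRepAdic.ofResidualGaloisRep ρbar).IsFlatAt p)
    (A : ValuationSubring Qb) (hA : A.LiesOverPrime p) :
    ∀ L : Submodule k ρbar.V, finrank k L = 1 →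
      (∀ g ∈ A.decompositionSubgroup ℚ, ∀ v ∈ L, ρbar.ρ g v ∈ L) → L ≤ aug ρbar.ρ A →
      ∀ s ∈ A.inertiaSubgroupIn ℚ, ∀ v ∈ L, ρbar.ρ s v = LinearMap.det (ρbar.ρ s) • v := by
  intro L hL1 hLD hLaug s hs v hv
  have hp : p.Prime := Fact.out
  have hchar : CharP k p := Fermat.Agent.GP.Flat.CasesFrozen.charP_of_detIsCyclotomic ρbar p hdet
  obtain ⟨n, hn⟩ := exists_pow_of_galois hp s
  have hdn : LinearMap.det (ρbar.ρ s) = (n : k) :=
    Fermat.Agent.GP.Loc.GlobH0.det_eq_natCast ρbar p hdet s n hn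
  rw [hdn]
  exact tameWeight_adic (GaloisRepAdic.ofResidualGaloisRep ρbar) hp hflat A hA L hL1 hLD hLaug
    hs hn v hv

/-- **S56-FLAT-CASES for a flat `ρbar`** (`CasesFrozen.cases_frozen` with the tame-weight binder
discharged): either the ordinary shape or the level-two shape. -/
theorem cases_flat (hp2 : p ≠ 2)
    (hdet : (GaloisRepAdic.ofResidualGaloisRep ρbar).DetIsCyclotomic p)
    (hflat : (GaloisRepAdic.ofResidualGaloisRep ρbar).IsFlatAt p)
    (hsplit : ∀ σ : GQ, ∃ α β : k, LinearMap.charpoly (ρbar.ρ σ) = (X - C α) * (X - C β))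
    (A : ValuationSubring Qb) (hA : A.LiesOverPrime p) :
    (finrank k (aug ρbar.ρ A) = 1 ∧
      (∀ g ∈ A.decompositionSubgroup ℚ, ∀ v ∈ aug ρbar.ρ A, ρbar.ρ g v ∈ aug ρbar.ρ A) ∧
      (∀ s ∈ A.inertiaSubgroupIn ℚ, ∀ v : ρbar.V, ρbar.ρ s v - v ∈ aug ρbar.ρ A) ∧
      (∀ s ∈ A.inertiaSubgroupIn ℚ, ∀ v ∈ aug ρbar.ρ A,
        ρbar.ρ s v = LinearMap.det (ρbar.ρ s) • v)) ∨
    (aug ρbar.ρ A = ⊤ ∧
      (∀ L : Submodule k ρbar.V,
        (∀ g ∈ A.decompositionSubgroup ℚ, ∀ v ∈ L, ρbar.ρ g v ∈ L) → L = ⊥ ∨ L = ⊤) ∧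
      (∀ s ∈ A.inertiaSubgroupIn ℚ, ρbar.ρ s ^ (p ^ 2 - 1) = 1) ∧
      ∃ φ : GQ, A.IsFrobeniusAt φ p ∧ ∃ e₀ e₁ : ρbar.V, LinearIndependent k ![e₀, e₁] ∧
        (∀ s ∈ A.inertiaSubgroupIn ℚ, ∃ c : k,
          ρbar.ρ s e₀ = c • e₀ ∧ ρbar.ρ s e₁ = c ^ p • e₁ ∧ c ^ p ^ 2 = c) ∧
        (∃ s ∈ A.inertiaSubgroupIn ℚ, ∃ c : k, ρbar.ρ s e₀ = c • e₀ ∧ c ^ p ≠ c) ∧
        ρbar.ρ φ e₁ = e₀ ∧ ∃ x : k, x ≠ 0 ∧ ρbar.ρ φ e₀ = x • e₁) :=
  Fermat.Agent.GP.Flat.CasesFrozen.cases_frozen ρbar p hp2 hdet hsplit A hA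
    (tameWeight_of_isFlatAt ρbar p hdet hflat A hA)

end Residual

end Fermat.Agent.GP.Flat.TameWeight.Plug
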